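import Fermat.Agent.DeligneSerre.X1.Descent.Basic
import Fermat.Agent.DeligneSerre.X1.ES.Congruence
import Mathlib.FieldTheory.IntermediateField.Adjoin.Basic

/-!
# The Galois action on the Kummer group has finite level
-/

set_option autoImplicit false

noncomputable section

open ModularCurve IntermediateField

namespace FermatAgent.DeligneSerre.X1

local notation "Qb" => AlgebraicClosure ℚ
local notation "GQ" => AlgebraicClosure ℚ ≃ₐ[ℚ] AlgebraicClosure ℚ

variable {M : ℕ} [NeZero M] {n : ℕ}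

theorem x1GalUnits_one (y : (x1Bar M)ˣ) : x1GalUnits M 1 y = y :=
  Units.ext (Subtype.ext (by
    show coeffMap ((1 : GQ) : Qb →+* Qb) ((y : x1Bar M) : LaurentSeries Qb) = _
    rw [show ((1 : GQ) : Qb →+* Qb) = RingHom.id Qb from RingHom.ext fun _ => rfl, coeffMap_id]))

theorem x1GalUnits_mul (σ τ : GQ) (y : (x1Bar M)ˣ) :
    x1GalUnits M (σ * τ) y = x1GalUnits M σ (x1GalUnits M τ y) :=
  Units.ext (Subtype.ext (by
    show coeffMap ((σ * τ : GQ) : Qb →+* Qb) ((y : x1Bar M) : LaurentSeries Qb) =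
      coeffMap (σ : Qb →+* Qb) (coeffMap (τ : Qb →+* Qb) ((y : x1Bar M) : LaurentSeries Qb))
    rw [coeffMap_coeffMap]
    exact coeffMap_congr (RingHom.ext fun _ => rfl) _))

theorem x1GalV_one (x : KummerV Qb (x1Bar M) n) : x1GalV M n 1 x = x := by
  obtain ⟨y, rfl⟩ := kummerMk_surjective x
  rw [x1GalV, kummerMap_mk]
  exact congrArg _ (Subtype.ext (x1GalUnits_one _))

theorem x1GalV_mul (σ τ : GQ) (x : KummerV Qb (x1Bar M) n) :
    x1GalV M n (σ * τ) x = x1GalV M n σ (x1GalV M n τ x) := by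
  obtain ⟨y, rfl⟩ := kummerMk_surjective x
  rw [x1GalV, x1GalV, x1GalV, kummerMap_mk, kummerMap_mk, kummerMap_mk]
  exact congrArg _ (Subtype.ext (x1GalUnits_mul σ τ _))

/-- Each function has coefficients in a number field. -/
theorem exists_field_of_mem {x : LaurentSeries Qb} (hx : x ∈ x1Bar M) :
    ∃ L : IntermediateField ℚ Qb, FiniteDimensional ℚ L ∧
      ∀ σ : GQ, (∀ c ∈ L, σ c = c) → coeffMap (σ : Qb →+* Qb) x = x := by
  have hx' : x ∈ x1FieldC Qb M := by rwa [x1Bar, laurentBaseChange_x1] at hx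
  induction hx' using IntermediateField.adjoin_induction with
  | mem x hgen =>
    refine ⟨⊥, inferInstance, fun σ _ => ?_⟩
    rcases hgen with (rfl | rfl) | ⟨i, rfl⟩
    · exact coeffMap_jqModC _
    · exact coeffMap_jqNModC _ M
    · exact coeffMap_genSer _ M _ _
  | algebraMap c =>
    refine ⟨ℚ⟮c⟯, IntermediateField.adjoin.finiteDimensional ((AlgebraicClosure.isAlgebraic ℚ).isAlgebraic c).isIntegral,
      fun σ hσ => ?_⟩
    rw [algebraMap_laurentSeries_eq_single, coeffMap_single]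
    exact congrArg _ (hσ c (mem_adjoin_simple_self ℚ c))
  | add a b ha hb iha ihb =>
    obtain ⟨L, hL, h⟩ := iha (by rw [x1Bar, laurentBaseChange_x1]; exact ha)
    obtain ⟨L', hL', h'⟩ := ihb (by rw [x1Bar, laurentBaseChange_x1]; exact hb)
    exact ⟨L ⊔ L', inferInstance, fun σ hσ => by
      rw [map_add, h σ fun c hc => hσ c (SetLike.le_def.mp le_sup_left hc),
        h' σ fun c hc => hσ c (SetLike.le_def.mp le_sup_right hc)]⟩
  | inv a ha iha =>
    obtain ⟨L, hL, h⟩ := iha (by rw [x1Bar, laurentBaseChange_x1]; exact ha)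
    exact ⟨L, hL, fun σ hσ => by rw [map_inv₀, h σ hσ]⟩
  | mul a b ha hb iha ihb =>
    obtain ⟨L, hL, h⟩ := iha (by rw [x1Bar, laurentBaseChange_x1]; exact ha)
    obtain ⟨L', hL', h'⟩ := ihb (by rw [x1Bar, laurentBaseChange_x1]; exact hb)
    exact ⟨L ⊔ L', inferInstance, fun σ hσ => by
      rw [map_mul, h σ fun c hc => hσ c (SetLike.le_def.mp le_sup_left hc),
        h' σ fun c hc => hσ c (SetLike.le_def.mp le_sup_right hc)]⟩

variable (h5 : 5 < M)

include h5 in
/-- The action on the Kummer group factors through a number field. -/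
theorem exists_finite_level (hn : n ≠ 0) [Finite (KummerV ℂ (x1FieldC ℂ M) n)] :
    ∃ L : IntermediateField ℚ Qb, FiniteDimensional ℚ L ∧
      ∀ σ : GQ, (∀ c ∈ L, σ c = c) → ∀ x : KummerV Qb (x1Bar M) n, x1GalV M n σ x = x := by
  have : Finite (KummerV Qb (x1Bar M) n) := Finite.of_injective _ (descV_injective h5 hn)
  choose rep hrep using fun x : KummerV Qb (x1Bar M) n => kummerMk_surjective x
  choose L hL hfix using fun x : KummerV Qb (x1Bar M) n =>
    exists_field_of_mem (M := M) ((rep x : (x1Bar M)ˣ) : x1Bar M).2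
  refine ⟨⨆ x, L x, IntermediateField.finiteDimensional_iSup_of_finite, fun σ hσ x => ?_⟩
  rw [← hrep x, x1GalV, kummerMap_mk]
  refine congrArg _ (Subtype.ext (Units.ext (Subtype.ext ?_)))
  exact hfix x σ fun c hc => hσ c (SetLike.le_def.mp (le_iSup L x) hc)

end FermatAgent.DeligneSerre.X1
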