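import Fermat.Agent.DeligneSerre.X1.Descent.Kummer
import Fermat.Agent.DeligneSerre.X1.Hecke.Field
import Fermat.Agent.DeligneSerre.X1.GoodRed.Model

/-!
# From `x1Bar M` to the field over `ℂ`
-/

set_option autoImplicit false

noncomputable section

open AlgebraicCurve ModularCurve
open FermatAgent.ModFun (qbarToC)
open FermatAgent.Curve.Descent (IsConstantExtension)

namespace FermatAgent.DeligneSerre.X1

local notation "Qb" => AlgebraicClosure ℚ

variable {M : ℕ} [NeZero M]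

/-- `barToComplex` as a ring homomorphism. -/
def x1ToC (M : ℕ) [NeZero M] : x1Bar M →+* x1FieldC ℂ M where
  toFun := barToComplex
  map_one' := Subtype.ext (map_one (coeffMap (qbarToC : Qb →+* ℂ)))
  map_mul' x y := Subtype.ext (map_mul (coeffMap (qbarToC : Qb →+* ℂ))
    (x : LaurentSeries Qb) (y : LaurentSeries Qb))
  map_zero' := Subtype.ext (map_zero (coeffMap (qbarToC : Qb →+* ℂ)))
  map_add' x y := Subtype.ext (map_add (coeffMap (qbarToC : Qb →+* ℂ))
    (x : LaurentSeries Qb) (y : LaurentSeries Qb))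

theorem coe_x1ToC (x : x1Bar M) :
    (x1ToC M x : LaurentSeries ℂ) = coeffMap (qbarToC : Qb →+* ℂ) (x : LaurentSeries Qb) := rfl

/-- On units. -/
abbrev x1ToCUnits (M : ℕ) [NeZero M] : (x1Bar M)ˣ →* (x1FieldC ℂ M)ˣ :=
  Units.map (x1ToC M).toMonoidHom

/-- `ℂ` as an algebra over `ℚbar`, through `qbarToC`. -/
@[reducible]
def qbAlgebraC : Algebra Qb ℂ := qbarToC.toRingHom.toAlgebra

attribute [local instance] qbAlgebraC

/-- The function field over `ℂ` as an algebra over that over `ℚbar`, through `x1ToC`. -/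
@[reducible]
def x1AlgebraC (M : ℕ) [NeZero M] : Algebra (x1Bar M) (x1FieldC ℂ M) := (x1ToC M).toAlgebra

/-- The function field over `ℂ` as an algebra over the constants `ℚbar`. -/
@[reducible]
def x1ConstAlgebraC (M : ℕ) [NeZero M] : Algebra Qb (x1FieldC ℂ M) :=
  ((algebraMap ℂ (x1FieldC ℂ M)).comp (algebraMap Qb ℂ)).toAlgebra

attribute [local instance] x1AlgebraC x1ConstAlgebraC

theorem x1_isScalarTower_const (M : ℕ) [NeZero M] : IsScalarTower Qb ℂ (x1FieldC ℂ M) :=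
  IsScalarTower.of_algebraMap_eq fun _ => rfl

theorem x1ToC_algebraMap (c : Qb) :
    x1ToC M (algebraMap Qb (x1Bar M) c) = algebraMap ℂ (x1FieldC ℂ M) (qbarToC c) := by
  refine Subtype.ext ?_
  rw [coe_x1ToC]
  show coeffMap (qbarToC : Qb →+* ℂ) (algebraMap Qb (LaurentSeries Qb) c) = algebraMap ℂ _ (qbarToC c)
  rw [algebraMap_laurentSeries_eq_single, coeffMap_single, algebraMap_laurentSeries_eq_single]
  rfl

theorem x1_isScalarTower_ext (M : ℕ) [NeZero M] : IsScalarTower Qb (x1Bar M) (x1FieldC ℂ M) :=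
  IsScalarTower.of_algebraMap_eq fun c => (x1ToC_algebraMap c).symm

attribute [local instance] x1_isScalarTower_const x1_isScalarTower_ext

theorem x1_isConstantExtension (M : ℕ) [NeZero M] :
    IsConstantExtension Qb ℂ (x1Bar M) (x1FieldC ℂ M) := by
  have hle : ∀ y ∈ x1FieldC Qb M, y ∈ x1Bar M := fun y hy => by
    rw [x1Bar, laurentBaseChange_x1]; exact hy
  refine ⟨?_, ⟨⟨jqModC Qb, hle _ (jqModC_mem_x1FieldC Qb M)⟩, ?_⟩⟩
  · apply IntermediateField.map_injective (x1FieldC ℂ M).val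
    rw [IntermediateField.adjoin_map, ← AlgHom.fieldRange_eq_map, IntermediateField.fieldRange_val]
    refine le_antisymm (IntermediateField.adjoin_le_iff.mpr ?_) (IntermediateField.adjoin_le_iff.mpr ?_)
    · rintro _ ⟨y, -, rfl⟩
      exact y.2
    · rw [← coeffMap_image_x1Gens (qbarToC : Qb →+* ℂ) M]
      rintro _ ⟨z, hz, rfl⟩
      exact IntermediateField.subset_adjoin ℂ _
        ⟨_, ⟨⟨z, hle z (IntermediateField.subset_adjoin _ _ hz)⟩, rfl⟩, rfl⟩
  · exact Igusa.Down.transcendental_jqModC_coe ℂ _ (coeffMap_jqModC (qbarToC : Qb →+* ℂ))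

/-- The coefficientwise action of `Aut(ℂ/ℚ̄)` on the field over `ℂ`. -/
theorem coeffMap_aut_mem (τ : ℂ ≃ₐ[Qb] ℂ) {x : LaurentSeries ℂ} (hx : x ∈ x1FieldC ℂ M) :
    coeffMap (τ : ℂ →+* ℂ) x ∈ x1FieldC ℂ M := by
  induction hx using IntermediateField.adjoin_induction with
  | mem x hx =>
    refine IntermediateField.subset_adjoin _ _ ?_
    rw [← coeffMap_image_x1Gens (τ : ℂ →+* ℂ) M]
    exact ⟨x, hx, rfl⟩
  | algebraMap c =>
    rw [algebraMap_laurentSeries_eq_single, coeffMap_single, ← algebraMap_laurentSeries_eq_single]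
    exact IntermediateField.algebraMap_mem _ _
  | add a b _ _ ha hb => rw [map_add]; exact add_mem ha hb
  | inv a _ ha => rw [map_inv₀]; exact inv_mem ha
  | mul a b _ _ ha hb => rw [map_mul]; exact mul_mem ha hb

/-- The same as a ring automorphism. -/
def x1CAut (M : ℕ) [NeZero M] (τ : ℂ ≃ₐ[Qb] ℂ) : x1FieldC ℂ M ≃+* x1FieldC ℂ M where
  toFun x := ⟨coeffMap (τ : ℂ →+* ℂ) x, coeffMap_aut_mem τ x.2⟩
  invFun x := ⟨coeffMap (τ.symm : ℂ →+* ℂ) x, coeffMap_aut_mem τ.symm x.2⟩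
  left_inv x := Subtype.ext <| by
    show coeffMap (τ.symm : ℂ →+* ℂ) (coeffMap (τ : ℂ →+* ℂ) x) = x
    rw [coeffMap_coeffMap, coeffMap_congr (g := RingHom.id ℂ) (RingHom.ext fun a => τ.symm_apply_apply a),
      coeffMap_id]
  right_inv x := Subtype.ext <| by
    show coeffMap (τ : ℂ →+* ℂ) (coeffMap (τ.symm : ℂ →+* ℂ) x) = x
    rw [coeffMap_coeffMap, coeffMap_congr (g := RingHom.id ℂ) (RingHom.ext fun a => τ.apply_symm_apply a),
      coeffMap_id]
  map_mul' x y := Subtype.ext (map_mul (coeffMap (τ : ℂ →+* ℂ)) (x : LaurentSeries ℂ) (y : LaurentSeries ℂ))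
  map_add' x y := Subtype.ext (map_add (coeffMap (τ : ℂ →+* ℂ)) (x : LaurentSeries ℂ) (y : LaurentSeries ℂ))

/-- As a semilinear automorphism. -/
def x1CSemilinear (M : ℕ) [NeZero M] (τ : ℂ ≃ₐ[Qb] ℂ) : SemilinearAut ℂ (x1FieldC ℂ M) :=
  ⟨(x1CAut M τ, τ.toRingEquiv), fun a => Subtype.ext (coeffMap_algebraMap (τ : ℂ →+* ℂ) a)⟩

theorem baseAut_x1CSemilinear (τ : ℂ ≃ₐ[Qb] ℂ) (a : ℂ) :
    SemilinearAut.baseAut (x1CSemilinear M τ) a = τ a := rfl

theorem x1CSemilinear_smul_map (τ : ℂ ≃ₐ[Qb] ℂ) (x : x1Bar M) :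
    x1CSemilinear M τ • algebraMap (x1Bar M) (x1FieldC ℂ M) x =
      algebraMap (x1Bar M) (x1FieldC ℂ M) x := by
  refine Subtype.ext ?_
  show coeffMap (τ : ℂ →+* ℂ) (coeffMap (qbarToC : Qb →+* ℂ) (x : LaurentSeries Qb)) =
    coeffMap (qbarToC : Qb →+* ℂ) (x : LaurentSeries Qb)
  rw [coeffMap_coeffMap]
  exact coeffMap_congr (RingHom.ext fun c => τ.commutes c) _

variable (h5 : 5 < M) {n : ℕ}

include h5 in
/-- `y` is in `kummerSel` over `ℚ̄` iff over `ℂ`. -/
theorem x1ToCUnits_mem_kummerSel_iff (y : (x1Bar M)ˣ) :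
    x1ToCUnits M y ∈ kummerSel ℂ (x1FieldC ℂ M) n ↔ y ∈ kummerSel Qb (x1Bar M) n :=
  have := x1_isConstantExtension M
  have := isFunctionField1_x1Bar (M := M) h5
  have := isFunctionField1_x1 ℂ h5.le (M := M)
  kummerSel_ext_iff (K := Qb) (K' := ℂ) (F' := x1FieldC ℂ M) y

/-- Extension of constants on the Kummer group. -/
def descV (M n : ℕ) [NeZero M] (h5 : 5 < M) :
    KummerV Qb (x1Bar M) n →* KummerV ℂ (x1FieldC ℂ M) n :=
  kummerMap (x1ToCUnits M) fun y hy => (x1ToCUnits_mem_kummerSel_iff h5 y).mpr hy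

theorem descV_mk (y : kummerSel Qb (x1Bar M) n) :
    descV M n h5 (kummerMk Qb (x1Bar M) n y) = kummerMk ℂ (x1FieldC ℂ M) n
      ⟨x1ToCUnits M (y : (x1Bar M)ˣ), (x1ToCUnits_mem_kummerSel_iff h5 (y : (x1Bar M)ˣ)).mpr y.2⟩ := by
  unfold descV
  exact kummerMap_mk _ _ y

include h5 in
theorem descV_injective (hn : n ≠ 0) : Function.Injective (descV M n h5) :=
  have := x1_isConstantExtension M
  have := isFunctionField1_x1Bar (M := M) h5
  have := isFunctionField1_x1 ℂ h5.le (M := M)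
  kummerExt_injective (K := Qb) (K' := ℂ) (F := x1Bar M) (F' := x1FieldC ℂ M) hn

include h5 in
theorem descV_bijective (hn : n ≠ 0) [Finite (KummerV ℂ (x1FieldC ℂ M) n)] :
    Function.Bijective (descV M n h5) :=
  have := x1_isConstantExtension M
  have := isFunctionField1_x1Bar (M := M) h5
  have := isFunctionField1_x1 ℂ h5.le (M := M)
  ⟨descV_injective h5 hn, kummerExt_surjective (K := Qb) (K' := ℂ) (F := x1Bar M)
    (F' := x1FieldC ℂ M) hn (x1CSemilinear M) baseAut_x1CSemilinear x1CSemilinear_smul_map⟩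

end FermatAgent.DeligneSerre.X1
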