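import Fermat.Agent.DeligneSerre.X1.KummerGroup
import Fermat.Agent.Curve.Descent.Laurent
import Fermat.Agent.Curve.RR.Setup

/-!
# Kummer groups and extension of constants

For a constant extension `F'/F` along algebraically closed `K ⊆ K'` of characteristic zero the
Kummer group of `F` injects into that of `F'`, and bijects if the latter is finite.
-/

set_option autoImplicit false
set_option linter.unusedSectionVars false

noncomputable section

open AlgebraicCurve FermatAgent.Curve.RR
open FermatAgent.Curve (divisorOf divisorOf_apply degree_divisorOf)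
open FermatAgent.Curve.Descent

namespace FermatAgent.DeligneSerre.X1

section OneField

variable {K F : Type*} [Field K] [IsAlgClosed K] [Field F] [Algebra K F]
  [Curve.IsFunctionField1 K F] {n : ℕ}

/-- The divisor `div y / n`. -/
def kummerDiv (n : ℕ) (y : F) : Divisor K F :=
  (divisorOf (K := K) y).mapRange (fun z : ℤ => z / n) (Int.zero_ediv _)

theorem nsmul_kummerDiv {y : Fˣ} (hy : y ∈ kummerSel K F n) :
    n • kummerDiv (K := K) n (y : F) = divisorOf (K := K) (y : F) := Finsupp.ext fun P => by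
  rw [Finsupp.smul_apply, kummerDiv, Finsupp.mapRange_apply, nsmul_eq_mul]
  exact Int.mul_ediv_cancel' (by rw [divisorOf_apply]; exact hy P)

theorem degree_kummerDiv (hn : n ≠ 0) {y : Fˣ} (hy : y ∈ kummerSel K F n) :
    Divisor.degree (kummerDiv (K := K) n (y : F)) = 0 := by
  have h := congrArg (Divisor.degree (K := K) (F := F)) (nsmul_kummerDiv hy)
  rw [map_nsmul, degree_divisorOf, nsmul_eq_mul] at h
  exact (mul_eq_zero.mp h).resolve_left (Int.natCast_ne_zero.mpr hn)

/-- Functions with equal orders differ by a constant, here an `n`-th power. -/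
theorem exists_pow_mul_eq (hn : n ≠ 0) {y z : Fˣ} {w : F} (hw : w ≠ 0)
    (h : ∀ P : Place K F, P.ord (y : F) = P.ord (z : F) + (n : ℤ) * P.ord w) :
    ∃ v : Fˣ, v ^ n = y * z⁻¹ := by
  have hzn : (z : F) * w ^ n ≠ 0 := mul_ne_zero z.ne_zero (pow_ne_zero n hw)
  obtain ⟨a, ha⟩ := (Curve.forall_ord_eq_zero_iff (K := K) (f := (y : F) / ((z : F) * w ^ n))).mp
    fun P => by
      rw [Curve.ord_div P y.ne_zero hzn, P.ord_mul z.ne_zero (pow_ne_zero n hw),
        Curve.ord_pow', h P, sub_self]
  obtain ⟨r, hr⟩ := IsAlgClosed.exists_pow_nat_eq a (Nat.pos_of_ne_zero hn)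
  have e : (y : F) / (z : F) = (algebraMap K F r * w) ^ n := by
    rw [mul_pow, ← map_pow, hr, ha]
    field_simp
  have hv : algebraMap K F r * w ≠ 0 := fun h0 => by
    rw [h0, zero_pow hn] at e
    exact div_ne_zero y.ne_zero z.ne_zero e
  refine ⟨Units.mk0 _ hv, Units.ext ?_⟩
  rw [Units.val_pow_eq_pow_val, Units.val_mk0, Units.val_mul, Units.val_inv_eq_inv_val, ← e,
    div_eq_mul_inv]

/-- A finite Kummer group bounds the `n`-torsion of `Pic⁰`. -/
theorem finite_torsion_of_kummerV (hn : n ≠ 0) [Finite (KummerV K F n)] :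
    {x : Pic0 K F | (n : ℤ) • x = 0}.Finite := by
  have key : ∀ x : {x : Pic0 K F | (n : ℤ) • x = 0}, ∃ (D : Divisor.degZero (K := K) (F := F))
      (f : kummerSel K F n), Pic0.mk D = x.1 ∧
        ∀ P : Place K F, ((f : Fˣ) : F) ≠ 0 ∧ P.ord ((f : Fˣ) : F) = (n : ℤ) * (D : Divisor K F) P := by
    rintro ⟨x, hx⟩
    obtain ⟨D, rfl⟩ := Pic0.mk_surjective x
    have h : ((n : ℤ) • D : Divisor.degZero (K := K) (F := F)).1 ∈
        Divisor.principal (K := K) (F := F) :=
      AddSubgroup.mem_addSubgroupOf.mp ((QuotientAddGroup.eq_zero_iff _).mp hx)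
    obtain ⟨f, hf, hfD⟩ := h
    have e : ∀ P : Place K F, P.ord f = (n : ℤ) * (D : Divisor K F) P := fun P => by
      rw [← hfD P, AddSubgroupClass.coe_zsmul, Finsupp.smul_apply, smul_eq_mul]
    exact ⟨D, ⟨Units.mk0 f hf, fun P => ⟨(D : Divisor K F) P, e P⟩⟩, rfl, fun P => ⟨hf, e P⟩⟩
  choose D f hD hf using key
  have hinj : Function.Injective fun x => kummerMk K F n (f x) := by
    intro x x' h
    have h' := mul_inv_eq_one.mpr h
    rw [← map_inv, ← map_mul, kummerMk_eq_one] at h'
    obtain ⟨w, hw⟩ := h'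
    have hw' : ((w : F)) ^ n = ((f x : Fˣ) : F) * ((f x' : Fˣ) : F)⁻¹ := by
      rw [← Units.val_inv_eq_inv_val, ← Units.val_mul, ← Units.val_pow_eq_pow_val, hw]
      rfl
    refine Subtype.ext ?_
    rw [← hD x, ← hD x']
    refine (QuotientAddGroup.eq).mpr (AddSubgroup.mem_addSubgroupOf.mpr
      ⟨(w⁻¹ : Fˣ), Units.ne_zero _, fun P => ?_⟩)
    have h1 := congrArg (P.ord) hw'
    rw [Curve.ord_pow', P.ord_mul (f x).1.ne_zero (inv_ne_zero (f x').1.ne_zero), P.ord_inv,
      (hf x P).2, (hf x' P).2] at h1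
    rw [AddSubgroup.coe_add, AddSubgroup.coe_neg, Finsupp.add_apply, Finsupp.neg_apply,
      Units.val_inv_eq_inv_val, P.ord_inv]
    have hnz : (n : ℤ) ≠ 0 := Int.natCast_ne_zero.mpr hn
    refine (Int.eq_of_mul_eq_mul_left hnz ?_)
    linear_combination h1
  have := Finite.of_injective _ hinj
  exact Set.toFinite _

end OneField

section Ext

variable {K K' F F' : Type*} [Field K] [Field K'] [Field F] [Field F']
  [Algebra K K'] [Algebra K F] [Algebra K' F'] [Algebra F F'] [Algebra K F']
  [IsScalarTower K F F'] [IsScalarTower K K' F']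
  [IsAlgClosed K] [CharZero K] [Curve.IsFunctionField1 K F] [IsConstantExtension K K' F F']
  [IsAlgClosed K'] [Curve.IsFunctionField1 K' F'] {n : ℕ}

variable (F') in
/-- The map on units. -/
abbrev extUnits : Fˣ →* F'ˣ := Units.map (algebraMap F F').toMonoidHom

theorem kummerSel_ext_iff (y : Fˣ) :
    extUnits F' y ∈ kummerSel K' F' n ↔ y ∈ kummerSel K F n := by
  refine ⟨fun h P => ?_, fun h Q => ?_⟩
  · have := h (extPlace K' F' P)
    rwa [show ((extUnits F' y : F'ˣ) : F') = algebraMap F F' (y : F) from rfl, ord_extPlace] at this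
  · show (n : ℤ) ∣ Q.ord (algebraMap F F' (y : F))
    by_cases hQ : Q ∈ Set.range (extPlace (K := K) (F := F) K' F')
    · obtain ⟨P, rfl⟩ := hQ
      rw [ord_extPlace]
      exact h P
    · rw [ord_map_eq_zero_of_notMem_range hQ]
      exact dvd_zero _

variable (K K' F F' n) in
/-- Extension of constants on Kummer groups. -/
def kummerExt : KummerV K F n →* KummerV K' F' n :=
  kummerMap (extUnits F') fun y hy => (kummerSel_ext_iff y).mpr hy

theorem kummerExt_mk (y : kummerSel K F n) :
    kummerExt K K' F F' n (kummerMk K F n y) =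
      kummerMk K' F' n ⟨extUnits F' (y : Fˣ),
        (kummerSel_ext_iff (K := K) (K' := K') (F' := F') (y : Fˣ)).mpr y.2⟩ := by
  unfold kummerExt
  exact kummerMap_mk _ _ y

theorem kummerExt_injective (hn : n ≠ 0) :
    Function.Injective (kummerExt K K' F F' n) := by
  rw [injective_iff_map_eq_one]
  intro x hx
  obtain ⟨y, rfl⟩ := kummerMk_surjective x
  rw [kummerExt_mk, kummerMk_eq_one] at hx
  obtain ⟨w, hw⟩ := hx
  have hp : (extDivisor K' F' (kummerDiv (K := K) n ((y : Fˣ) : F))).IsPrincipal :=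
    ⟨(w : F'), w.ne_zero, fun Q => by
      have h1 : n • extDivisor K' F' (kummerDiv (K := K) n ((y : Fˣ) : F)) =
          n • divisorOf (K := K') (w : F') := by
        rw [← map_nsmul, nsmul_kummerDiv y.2, extDivisor_divisorOf]
        refine Finsupp.ext fun R => ?_
        rw [divisorOf_apply, Finsupp.smul_apply, divisorOf_apply, nsmul_eq_mul,
          ← Curve.ord_pow', ← Units.val_pow_eq_pow_val, hw]
        rfl
      have h2 := congrArg (fun E : Divisor K' F' => E Q) h1
      simpa [hn, divisorOf_apply] using h2⟩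
  obtain ⟨z, hz, hzD⟩ := isPrincipal_of_extDivisor hp
  obtain ⟨v, hv⟩ := exists_pow_mul_eq (K := K) hn (y := (y : Fˣ)) (z := 1) hz fun P => by
    have h := congrArg (fun E : Divisor K F => E P) (nsmul_kummerDiv y.2)
    simp only [Finsupp.smul_apply, divisorOf_apply, nsmul_eq_mul] at h
    rw [Units.val_one, P.ord_one, zero_add, ← hzD P, h]
  exact kummerMk_eq_one.mpr ⟨v, by rw [hv, inv_one, mul_one]⟩

/-- A point of order `n` over `K'` comes from `K` if there are finitely many. -/
theorem exists_extDivisor_of_torsion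
    (g : (K' ≃ₐ[K] K') → SemilinearAut K' F')
    (hg : ∀ τ a, SemilinearAut.baseAut (g τ) a = τ a)
    (hgF : ∀ τ (x : F), g τ • algebraMap F F' x = algebraMap F F' x)
    (hfin : {x : Pic0 K' F' | (n : ℤ) • x = 0}.Finite)
    (D : Divisor.degZero (K := K') (F := F')) (hD : (n : ℤ) • Pic0.mk D = 0) :
    ∃ E₀ : Divisor K F,
      extDivisor K' F' E₀ - (D : Divisor K' F') ∈ Divisor.principal (K := K') (F := F') := by
  classical
  obtain ⟨P₀⟩ := RRSetting.nonempty_place (K := K) (F := F)
  set Pc := extPlace K' F' P₀ with hPc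
  have hgP : ∀ τ, g τ • Pc = Pc := fun τ => smul_extPlace (g τ) (hgF τ) P₀
  have hDdeg : Divisor.degree (D : Divisor K' F') = 0 := Divisor.mem_degZero.mp D.2
  let T : ℕ → Divisor K' F' := fun d => (D : Divisor K' F') + Finsupp.single Pc (d : ℤ)
  have hTdeg : ∀ d, Divisor.degree (T d) = d := fun d => by
    simp only [T, map_add, hDdeg, zero_add]
    rw [Divisor.degree_single, RRSetting.deg_eq_one]
    simp
  have hex : ∃ d, ell (T d) ≠ 0 := by
    refine ⟨genusFF K' F', ?_⟩
    have := riemann_inequality (T (genusFF K' F'))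
    rw [hTdeg] at this
    omega
  set d := Nat.find hex with hd
  have hne : ell (T d) ≠ 0 := Nat.find_spec hex
  have hone : ell (T d) = 1 := by
    rcases Nat.eq_zero_or_eq_succ_pred d with h0 | hsucc
    · have := ell_le_degree_add_one (D := T d) (by rw [hTdeg]; positivity)
      rw [hTdeg, h0] at this
      rw [h0] at hne ⊢
      omega
    · set e := d.pred
      have he : ell (T e) = 0 := by
        by_contra hc
        have := Nat.find_min' hex hc
        rw [← hd] at this
        omega
      have hT : T d = T e + Finsupp.single Pc 1 := by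
        simp only [T, hsucc, add_assoc, ← Finsupp.single_add]
        push_cast
        ring_nf
      have := (FermatAgent.Curve.riemannRoch_step (T e) Pc).2
      rw [← hT] at this
      change ell (T d) ≤ ell (T e) + 1 at this
      omega
  obtain ⟨E, hE, hEp⟩ := ell_pos_iff.mp (Nat.pos_of_ne_zero hne)
  have hEone : ell E = 1 := (ell_eq_of_sub_mem_principal hEp).trans hone
  have key : ∀ τ σ, g τ • Pic0.mk D = g σ • Pic0.mk D → g τ • E = g σ • E := by
    intro τ σ h
    set h₀ := (g σ)⁻¹ * g τ with hh₀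
    have hfix : h₀ • Pic0.mk D = Pic0.mk D := by
      rw [hh₀, mul_smul, h, inv_smul_smul]
    have hP : h₀ • Pc = Pc := by
      rw [hh₀, mul_smul, hgP, inv_smul_eq_iff, hgP]
    have hp : h₀ • (D : Divisor K' F') - (D : Divisor K' F') ∈
        Divisor.principal (K := K') (F := F') := by
      have h' := (QuotientAddGroup.eq (s := (Divisor.principal (K := K') (F := F')).addSubgroupOf _)).mp
        hfix.symm
      rw [AddSubgroup.mem_addSubgroupOf] at h'
      rwa [AddSubgroup.coe_add, AddSubgroup.coe_neg, neg_add_eq_sub] at h'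
    have hE' : h₀ • E = E := by
      refine eq_of_ell_eq_one hE (fun v => ?_) hEone ?_
      · rw [SemilinearAut.divisor_smul_apply]
        exact hE _
      · have h1 := SemilinearAut.smul_mem_principal h₀ hEp
        have e : h₀ • E - E = h₀ • (E - T d) + (h₀ • (D : Divisor K' F') - D) - (E - T d) := by
          simp only [T, smul_sub, smul_add, SemilinearAut.smul_single, hP]
          abel
        rw [e]
        exact sub_mem (add_mem h1 hp) hEp
    have := congrArg (g σ • ·) hE'
    simpa [hh₀, mul_smul] using this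
  have horbit : (Set.range fun τ => g τ • E).Finite := by
    have hsub : (Set.range fun τ => g τ • Pic0.mk D) ⊆ {x | (n : ℤ) • x = 0} := by
      rintro _ ⟨τ, rfl⟩
      show (n : ℤ) • (g τ • Pic0.mk D) = 0
      rw [← SemilinearAut.smul_zsmul, hD]
      exact smul_zero (A := Pic0 K' F') (g τ)
    choose! sec hsec using fun y (hy : y ∈ Set.range fun τ => g τ • Pic0.mk D) => hy
    refine ((hfin.subset hsub).image fun y => g (sec y) • E).subset ?_
    rintro _ ⟨τ, rfl⟩
    exact ⟨g τ • Pic0.mk D, ⟨τ, rfl⟩, key _ _ (hsec _ ⟨τ, rfl⟩)⟩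
  have hplaces : ∀ Q ∈ E.support, Q ∈ Set.range (extPlace (K := K) (F := F) K' F') := by
    intro Q hQ
    obtain ⟨P, hP⟩ := exists_extPlace_eq_of_finite_orbit (K := K) (F := F) g hg hgF (Q := Q) (by
      refine Set.Finite.subset (Set.Finite.biUnion horbit fun R _ => R.support.finite_toSet) ?_
      rintro _ ⟨τ, rfl⟩
      refine Set.mem_biUnion ⟨τ, rfl⟩ ?_
      rw [Finset.mem_coe, Finsupp.mem_support_iff, SemilinearAut.divisor_smul_apply_smul]
      exact Finsupp.mem_support_iff.mp hQ)
    exact ⟨P, hP⟩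
  refine ⟨E.comapDomain (extPlace (K := K) (F := F) K' F') extPlace_injective.injOn -
    Finsupp.single P₀ (d : ℤ), ?_⟩
  have hE₀ : extDivisor K' F' (E.comapDomain (extPlace (K := K) (F := F) K' F')
      extPlace_injective.injOn) = E :=
    Finsupp.mapDomain_comapDomain _ extPlace_injective _ hplaces
  rw [map_sub, hE₀, extDivisor_single, ← hPc]
  have e : E - Finsupp.single Pc (d : ℤ) - (D : Divisor K' F') = E - T d := by
    simp only [T]
    abel
  rw [e]
  exact hEp

theorem kummerExt_surjective (hn : n ≠ 0)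
    (g : (K' ≃ₐ[K] K') → SemilinearAut K' F')
    (hg : ∀ τ a, SemilinearAut.baseAut (g τ) a = τ a)
    (hgF : ∀ τ (x : F), g τ • algebraMap F F' x = algebraMap F F' x)
    [Finite (KummerV K' F' n)] : Function.Surjective (kummerExt K K' F F' n) := by
  intro x
  obtain ⟨w, rfl⟩ := kummerMk_surjective x
  set D := kummerDiv (K := K') n ((w : F'ˣ) : F')
  have hD0 := degree_kummerDiv hn w.2
  have hnD : (n : ℤ) • Pic0.mk (⟨D, Divisor.mem_degZero.mpr hD0⟩ :
      Divisor.degZero (K := K') (F := F')) = 0 := by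
    refine (QuotientAddGroup.eq_zero_iff _).mpr (AddSubgroup.mem_addSubgroupOf.mpr ?_)
    show (n : ℤ) • D ∈ _
    rw [natCast_zsmul, nsmul_kummerDiv w.2]
    exact ⟨_, (w : F'ˣ).ne_zero, fun P => divisorOf_apply _ P⟩
  obtain ⟨E₀, u, hu, huD⟩ := exists_extDivisor_of_torsion g hg hgF
    (finite_torsion_of_kummerV hn) ⟨D, Divisor.mem_degZero.mpr hD0⟩ hnD
  have hp : (extDivisor K' F' (n • E₀)).IsPrincipal := by
    refine ⟨((w : F'ˣ) : F') * u ^ n, mul_ne_zero (w : F'ˣ).ne_zero (pow_ne_zero n hu), fun P => ?_⟩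
    rw [map_nsmul, Finsupp.smul_apply, nsmul_eq_mul, P.ord_mul (w : F'ˣ).ne_zero (pow_ne_zero n hu),
      Curve.ord_pow', ← huD P, Finsupp.sub_apply, ← divisorOf_apply (K := K'), ← nsmul_kummerDiv w.2,
      Finsupp.smul_apply, nsmul_eq_mul]
    ring
  obtain ⟨y₀, hy₀, hyD⟩ := isPrincipal_of_extDivisor hp
  have hsel : Units.mk0 y₀ hy₀ ∈ kummerSel K F n := fun P => ⟨E₀ P, by
    rw [Units.val_mk0, ← hyD P, Finsupp.smul_apply, nsmul_eq_mul]⟩
  refine ⟨kummerMk K F n ⟨_, hsel⟩, ?_⟩
  rw [kummerExt_mk, ← mul_inv_eq_one, ← map_inv, ← map_mul, kummerMk_eq_one]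
  refine exists_pow_mul_eq (K := K') hn (z := (w : F'ˣ)) hu fun Q => ?_
  show Q.ord (algebraMap F F' y₀) = _
  have e : divisorOf (K := K) y₀ = n • E₀ := Finsupp.ext fun P => by rw [divisorOf_apply, hyD P]
  rw [← divisorOf_apply (K := K'), ← extDivisor_divisorOf (K := K), e, map_nsmul, Finsupp.smul_apply,
    nsmul_eq_mul, ← divisorOf_apply (K := K') ((w : F'ˣ) : F'), ← nsmul_kummerDiv w.2,
    Finsupp.smul_apply, nsmul_eq_mul, ← huD Q, Finsupp.sub_apply]
  ring

end Ext

end FermatAgent.DeligneSerre.X1
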